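import Mathlib
import Fermat.Agent.S48x.G1.Defs
import Fermat.Prelude.Def_ModularCurve_PeriodMapBundled

/-!
# P-S48, G1 (b1.5): the period map of `S₂(Γ₁(M))` on `±Γ₁(M)`: definitions (helper4)

Clone of the Prelude definitions `ModularCurve.HasEquivariantPrimitive`, `ModularCurve.periodMap`
with `Γ₀(N)` replaced by `Γ₁(M)` (forms) and `±Γ₁(M)` (group; weight two forms are invariant
under `-1`).
-/

set_option autoImplicit false

namespace Fermat.Agent.S48x.G1

open UpperHalfPlane CongruenceSubgroup Filter Topology ModularCurve.Period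
open scoped MatrixGroups

/-- `F` is the equivariant primitive of the weight two cusp form `f` on `Γ₁(M)`: a primitive on
the upper half plane, vanishing at `i∞`, with constant increments along `±Γ₁(M)` and limits at
all cusps. -/
def HasEquivariantPrimitive1 (M : ℕ) (f : CuspForm (Gamma1 M) 2) (F : ℍ → ℂ) : Prop :=
  (∀ τ : ℍ, HasDerivAt (F ∘ ofComplex) (f τ) ↑τ) ∧
    Tendsto F atImInfty (𝓝 0) ∧
    IsEquivariantPrimitive (Gamma1pm M) F ∧
    ∀ δ : SL(2, ℤ), ∃ L : ℂ, Tendsto (fun w : ℍ => F (δ • w)) atImInfty (𝓝 L)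

open Classical in
/-- The period map of `S₂(Γ₁(M))`, with values in the additive characters of `±Γ₁(M)`. -/
noncomputable def periodMap1 (M : ℕ) (f : CuspForm (Gamma1 M) 2) : Additive (Gamma1pm M) →+ ℂ :=
  if h : ∃ F : ℍ → ℂ, HasEquivariantPrimitive1 M f F then h.choose_spec.2.2.1.periodHom else 0

theorem periodMap1_def (M : ℕ) (f : CuspForm (Gamma1 M) 2) {F : ℍ → ℂ}
    (hF : HasEquivariantPrimitive1 M f F) :
    ∃ (F₀ : ℍ → ℂ) (h₀ : HasEquivariantPrimitive1 M f F₀),
      periodMap1 M f = h₀.2.2.1.periodHom := by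
  classical
  have h : ∃ F : ℍ → ℂ, HasEquivariantPrimitive1 M f F := ⟨F, hF⟩
  exact ⟨h.choose, h.choose_spec, dif_pos h⟩

/-- An element of `±Γ₁(M)` lies in `Γ₁(M)` or its negative does. -/
theorem mem_Gamma1_or_neg_mem {M : ℕ} {g : SL(2, ℤ)} (hg : g ∈ Gamma1pm M) :
    g ∈ Gamma1 M ∨ -g ∈ Gamma1 M := by
  obtain ⟨h0, h1⟩ := hg
  have hc : ((g 1 0 : ℤ) : ZMod M) = 0 := Gamma0_mem.mp h0
  have hprod := Fermat.Agent.S48x.Nebentypus.upperLeft_mul_lowerRight h0
  rcases h1 with e | e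
  · left
    rw [Gamma1_mem]
    have e' : ((g 1 1 : ℤ) : ZMod M) = 1 := e
    refine ⟨?_, e', hc⟩
    rw [e', mul_one] at hprod
    exact hprod
  · right
    rw [Gamma1_mem]
    have e' : ((g 1 1 : ℤ) : ZMod M) = -1 := e
    rw [e'] at hprod
    refine ⟨?_, ?_, ?_⟩
    · simp only [Matrix.SpecialLinearGroup.coe_neg, Matrix.neg_apply, Int.cast_neg]
      linear_combination hprod
    · simp only [Matrix.SpecialLinearGroup.coe_neg, Matrix.neg_apply, Int.cast_neg, e', neg_neg]
    · simp only [Matrix.SpecialLinearGroup.coe_neg, Matrix.neg_apply, Int.cast_neg, hc, neg_zero]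

end Fermat.Agent.S48x.G1
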