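import Mathlib
import Fermat.Agent.S48x.G1.ES1.Defs
import Fermat.Agent.S21.PeriodMap

/-!
# P-S48, G1 (b1.5): existence and uniqueness of the equivariant primitive on `Γ₁(M)`,
linearity of the period map (helper4)

Clone of the `Γ₀(N)`-section of `S21/PeriodMap.lean`.
-/

set_option autoImplicit false
set_option linter.unusedSectionVars false

open Complex Filter Function Topology CongruenceSubgroup ModularForm
open UpperHalfPlane hiding I
open Matrix.SpecialLinearGroup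
open Fermat.Agent.S21
open scoped Manifold Real MatrixGroups

namespace Fermat.Agent.S48x.G1

/-- In even weight, `-δ` and `δ` act in the same way. -/
theorem slash_two_neg (f : ℍ → ℂ) (δ : SL(2, ℤ)) : f ∣[(2 : ℤ)] (-δ) = f ∣[(2 : ℤ)] δ := by
  ext z
  rw [SL_slash_apply, SL_slash_apply, ModularGroup.SL_neg_smul]
  congr 1
  have : denom (mapGL ℝ (-δ) : GL (Fin 2) ℝ) z = - denom (mapGL ℝ δ : GL (Fin 2) ℝ) z := by
    simp [denom]
    ring
  show denom (mapGL ℝ (-δ) : GL (Fin 2) ℝ) z ^ (-2 : ℤ)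
    = denom (mapGL ℝ δ : GL (Fin 2) ℝ) z ^ (-2 : ℤ)
  rw [this]
  simp

variable (M : ℕ) [NeZero M]

local notation "Γ" => (Subgroup.map (mapGL ℝ) (Gamma1 M) : Subgroup (GL (Fin 2) ℝ))

/-- Weight two cusp forms on `Γ₁(M)` are invariant under `±Γ₁(M)`. -/
theorem slash_eq_of_mem_Gamma1pm (f : CuspForm (Gamma1 M) 2) {γ : SL(2, ℤ)}
    (hγ : γ ∈ Gamma1pm M) : (⇑f ∣[(2 : ℤ)] γ) = ⇑f := by
  rcases mem_Gamma1_or_neg_mem hγ with h | h
  · exact SlashInvariantFormClass.slash_action_eq f (mapGL ℝ γ) ⟨γ, h, rfl⟩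
  · have h1 : (⇑f ∣[(2 : ℤ)] (-γ)) = ⇑f :=
      SlashInvariantFormClass.slash_action_eq f (mapGL ℝ (-γ)) ⟨-γ, h, rfl⟩
    rw [slash_two_neg] at h1
    exact h1

theorem isDecaying_one1 (f : CuspForm (Gamma1 M) 2) : IsDecaying 1 f where
  mdiff := CuspFormClass.holo f
  periodic := by
    have h1 : (1 : ℝ) ∈ (Subgroup.map (mapGL ℝ) (Gamma1 M)).strictPeriods := by
      simp [CongruenceSubgroup.strictPeriods_Gamma1]
    simpa using SlashInvariantFormClass.periodic_comp_ofComplex f h1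
  zero := CuspFormClass.zero_at_infty f

theorem isCusp_smul_infty1 (δ : SL(2, ℤ)) : IsCusp (mapGL ℝ δ • OnePoint.infty) Γ :=
  (Subgroup.IsArithmetic.isCusp_iff_isCusp_SL2Z Γ).mpr (isCusp_SL2Z_iff'.mpr ⟨δ, rfl⟩)

theorem exists_uniform_period1 :
    ∃ h : ℕ, 0 < h ∧ ∀ (f : CuspForm (Gamma1 M) 2) (δ : SL(2, ℤ)),
      IsDecaying h (⇑f ∣[(2 : ℤ)] δ) := by
  obtain ⟨h, hh, hper⟩ := Subgroup.IsArithmetic.exists_nat_mem_strictPeriods_conj Γ
  refine ⟨h, hh, fun f δ => ⟨?_, ?_, ?_⟩⟩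
  · exact (CuspFormClass.holo f).slash 2 (mapGL ℝ δ)
  · have h1 := hper δ⁻¹
    rw [map_inv] at h1
    have h2 := SlashInvariantFormClass.periodic_comp_ofComplex
      (CuspForm.translate f (mapGL ℝ δ)) h1
    exact h2
  · exact CuspForm.zero_at_cusps' f (isCusp_smul_infty1 M δ) (mapGL ℝ δ) rfl

/-- The equivariant primitive of a weight two cusp form exists, with control at all cusps. -/
theorem exists_primitive_cuspForm1 (f : CuspForm (Gamma1 M) 2) :
    ∃ F : ℍ → ℂ, IsPrimitiveOf f F ∧ IsDecaying 1 F ∧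
      ∀ h : ℕ, 0 < h → (∀ δ : SL(2, ℤ), IsDecaying h (⇑f ∣[(2 : ℤ)] δ)) → CuspDecomp h F := by
  obtain ⟨F, hFdec, hF⟩ := exists_primitive one_pos (isDecaying_one1 M f)
  refine ⟨F, hF, hFdec, fun h hh hdec δ => ?_⟩
  obtain ⟨G, hGdec, hG⟩ := exists_primitive (Nat.cast_pos.mpr hh) (hdec δ)
  refine ⟨G, F (δ • UpperHalfPlane.I) - G UpperHalfPlane.I, hGdec, fun w => ?_⟩
  have h1 : IsPrimitiveOf (⇑f ∣[(2 : ℤ)] δ) (fun w => F (δ • w)) := IsPrimitiveOf.comp_SL hF δ
  have h2 := h1.sub_const hG w UpperHalfPlane.I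
  linear_combination h2

open ModularCurve ModularCurve.Period

theorem hasEquivariantPrimitive1_of {f : CuspForm (Gamma1 M) 2} {F : ℍ → ℂ}
    (hF : IsPrimitiveOf f F) (hdec : IsDecaying 1 F) {h : ℕ} (hcd : CuspDecomp h F) :
    HasEquivariantPrimitive1 M f F := by
  refine ⟨hF, hdec.zero, ?_, ?_⟩
  · intro γ
    refine ⟨F ((γ : SL(2, ℤ)) • UpperHalfPlane.I) - F UpperHalfPlane.I, fun z => ?_⟩
    have h1 : IsPrimitiveOf (⇑f ∣[(2 : ℤ)] (γ : SL(2, ℤ))) (fun w => F ((γ : SL(2, ℤ)) • w)) :=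
      hF.comp_SL γ
    rw [slash_eq_of_mem_Gamma1pm M f γ.2] at h1
    exact h1.sub_const hF z UpperHalfPlane.I
  · intro δ
    obtain ⟨G, L, hG, h⟩ := hcd δ
    refine ⟨L, ?_⟩
    have h1 : Tendsto (fun w => G w + L) atImInfty (𝓝 (0 + L)) := Tendsto.add_const L hG.zero
    rw [zero_add] at h1
    exact h1.congr fun w => (h w).symm

/-- Every weight two cusp form on `Γ₁(M)` has an equivariant primitive. -/
theorem exists_hasEquivariantPrimitive1 (f : CuspForm (Gamma1 M) 2) :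
    ∃ F : ℍ → ℂ, HasEquivariantPrimitive1 M f F := by
  obtain ⟨h, hh, hdec⟩ := exists_uniform_period1 M
  obtain ⟨F, hF, hFdec, hcd⟩ := exists_primitive_cuspForm1 M f
  exact ⟨F, hasEquivariantPrimitive1_of M hF hFdec (hcd h hh (hdec f))⟩

/-- A decaying primitive with cusp decompositions (uniform period). -/
theorem exists_primitive_cuspDecomp1 (f : CuspForm (Gamma1 M) 2) :
    ∃ (F : ℍ → ℂ) (h : ℕ), 0 < h ∧ IsPrimitiveOf f F ∧ IsDecaying 1 F ∧ CuspDecomp h F ∧
      HasEquivariantPrimitive1 M f F := by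
  obtain ⟨h, hh, hdec⟩ := exists_uniform_period1 M
  obtain ⟨F, hF, hFdec, hcd⟩ := exists_primitive_cuspForm1 M f
  exact ⟨F, h, hh, hF, hFdec, hcd h hh (hdec f),
    hasEquivariantPrimitive1_of M hF hFdec (hcd h hh (hdec f))⟩

theorem primitive1_unique {f : CuspForm (Gamma1 M) 2} {F₁ F₂ : ℍ → ℂ}
    (h₁ : HasEquivariantPrimitive1 M f F₁) (h₂ : HasEquivariantPrimitive1 M f F₂) : F₁ = F₂ := by
  funext z
  have hc : ∀ w, F₁ w - F₂ w = F₁ z - F₂ z := fun w => IsPrimitiveOf.sub_const h₁.1 h₂.1 w z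
  have ht : Tendsto (fun w => F₁ w - F₂ w) atImInfty (𝓝 (0 - 0)) := h₁.2.1.sub h₂.2.1
  have ht' : Tendsto (fun w => F₁ w - F₂ w) atImInfty (𝓝 (F₁ z - F₂ z)) := by
    simp_rw [hc]
    exact tendsto_const_nhds
  have h := tendsto_nhds_unique ht ht'
  linear_combination -h

/-- The period map is computed by any equivariant primitive, at any base point. -/
theorem periodMap1_apply {f : CuspForm (Gamma1 M) 2} {F : ℍ → ℂ}
    (hF : HasEquivariantPrimitive1 M f F) (γ : Gamma1pm M) (z : ℍ) :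
    periodMap1 M f (Additive.ofMul γ) = F ((γ : SL(2, ℤ)) • z) - F z := by
  obtain ⟨F₀, h₀, heq⟩ := periodMap1_def M f hF
  have h : F₀ = F := primitive1_unique M h₀ hF
  subst h
  rw [heq, IsEquivariantPrimitive.periodHom_apply,
    ← IsEquivariantPrimitive.sub_eq_period h₀.2.2.1 γ z]

theorem HasEquivariantPrimitive1.add' {f g : CuspForm (Gamma1 M) 2} {F G : ℍ → ℂ}
    (hF : HasEquivariantPrimitive1 M f F) (hG : HasEquivariantPrimitive1 M g G) :
    HasEquivariantPrimitive1 M (f + g) (F + G) := by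
  refine ⟨fun τ => (hF.1 τ).add (hG.1 τ), ?_, ?_, ?_⟩
  · have h := hF.2.1.add hG.2.1
    rw [add_zero] at h
    exact h
  · intro γ
    obtain ⟨c, hc⟩ := hF.2.2.1 γ
    obtain ⟨d, hd⟩ := hG.2.2.1 γ
    refine ⟨c + d, fun z => ?_⟩
    simp only [Pi.add_apply]
    linear_combination hc z + hd z
  · intro δ
    obtain ⟨L, hL⟩ := hF.2.2.2 δ
    obtain ⟨L', hL'⟩ := hG.2.2.2 δ
    exact ⟨L + L', hL.add hL'⟩

theorem HasEquivariantPrimitive1.smul' {f : CuspForm (Gamma1 M) 2} {F : ℍ → ℂ}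
    (hF : HasEquivariantPrimitive1 M f F) (c : ℂ) :
    HasEquivariantPrimitive1 M (c • f) (c • F) := by
  refine ⟨fun τ => (hF.1 τ).const_smul c, ?_, ?_, ?_⟩
  · have h := hF.2.1.const_smul c
    rw [smul_zero] at h
    exact h
  · intro γ
    obtain ⟨d, hd⟩ := hF.2.2.1 γ
    refine ⟨c * d, fun z => ?_⟩
    simp only [Pi.smul_apply, smul_eq_mul]
    linear_combination c * hd z
  · intro δ
    obtain ⟨L, hL⟩ := hF.2.2.2 δ
    exact ⟨c • L, hL.const_smul c⟩

/-- The period map as a linear map. -/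
noncomputable def periodMapLinear1 :
    CuspForm (Gamma1 M) 2 →ₗ[ℂ] (Additive (Gamma1pm M) →+ ℂ) where
  toFun f := periodMap1 M f
  map_add' f g := by
    obtain ⟨F, hF⟩ := exists_hasEquivariantPrimitive1 M f
    obtain ⟨G, hG⟩ := exists_hasEquivariantPrimitive1 M g
    refine AddMonoidHom.ext fun γ => ?_
    have h := periodMap1_apply M (HasEquivariantPrimitive1.add' M hF hG) (Additive.toMul γ)
      UpperHalfPlane.I
    have h1 := periodMap1_apply M hF (Additive.toMul γ) UpperHalfPlane.I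
    have h2 := periodMap1_apply M hG (Additive.toMul γ) UpperHalfPlane.I
    simp only [ofMul_toMul] at h h1 h2
    rw [AddMonoidHom.add_apply, h, h1, h2]
    simp only [Pi.add_apply]
    ring
  map_smul' c f := by
    obtain ⟨F, hF⟩ := exists_hasEquivariantPrimitive1 M f
    refine AddMonoidHom.ext fun γ => ?_
    have h := periodMap1_apply M (HasEquivariantPrimitive1.smul' M hF c) (Additive.toMul γ)
      UpperHalfPlane.I
    have h1 := periodMap1_apply M hF (Additive.toMul γ) UpperHalfPlane.I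
    simp only [ofMul_toMul] at h h1
    rw [RingHom.id_apply, AddMonoidHom.smul_apply, h, h1]
    simp only [Pi.smul_apply, smul_eq_mul]
    ring

@[simp] theorem periodMapLinear1_apply (f : CuspForm (Gamma1 M) 2) :
    periodMapLinear1 M f = periodMap1 M f := rfl

end Fermat.Agent.S48x.G1
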