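import Mathlib
import Fermat.Agent.S48x.G1.ES1.Exists
import Fermat.Agent.S21.ParabolicVanish
import Fermat.Agent.S21.RePeriod
import Fermat.Agent.Gateway.A2.Final

/-!
# P-S48, G1 (b1.5): the period map of `S₂(Γ₁(M))` kills parabolic and elliptic elements and is
injective (helper4)

* `eq_const_of_norm_invariant_of_finiteIndex` : the maximum principle of `S21/MaxPrinciple.lean`
  for an arbitrary finite index subgroup;
* `eq_zero_of_re_period1_eq_zero` : a weight two cusp form on `Γ₁(M)` whose periods along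
  `±Γ₁(M)` are all purely imaginary is zero;
* `periodMap1_mem_homPE`, `periodMapLinear1_injective`.
-/

set_option autoImplicit false
set_option linter.unusedSectionVars false

open UpperHalfPlane CongruenceSubgroup Filter Topology Function Complex Metric ModularCurve
  ModularCurve.Period
open Fermat.Agent.S21
open scoped MatrixGroups Manifold Real

namespace Fermat.Agent.S48x.G1

local notation "𝕢" => Periodic.qParam

/-- **Maximum modulus principle on `Γ\ℍ` with cusps**, `Γ` of finite index in `SL(2, ℤ)`. -/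
theorem eq_const_of_norm_invariant_of_finiteIndex {Γ : Subgroup SL(2, ℤ)} [Γ.FiniteIndex]
    {N : ℕ} [NeZero N] {E : ℍ → ℂ}
    (hE : MDifferentiable 𝓘(ℂ) 𝓘(ℂ) E)
    (hinv : ∀ γ ∈ Γ, ∀ z : ℍ, ‖E (γ • z)‖ = ‖E z‖)
    (hper : ∀ (δ : SL(2, ℤ)) (z : ℍ), E (δ • ((N : ℝ) +ᵥ z)) = E (δ • z))
    (hbdd : ∀ δ : SL(2, ℤ), IsBoundedAtImInfty (fun w : ℍ => E (δ • w))) :
    ∃ c : ℂ, ∀ z : ℍ, E z = c := by
  classical
  have hN : (0 : ℝ) < N := Nat.cast_pos.mpr (NeZero.pos N)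
  set Eδ : SL(2, ℤ) → ℍ → ℂ := fun δ w => E (δ • w) with hEδ
  have hper' : ∀ δ, Periodic (Eδ δ ∘ ofComplex) N := fun δ =>
    periodic_comp_ofComplex_of_vadd (hper δ)
  have hhol : ∀ δ, MDifferentiable 𝓘(ℂ) 𝓘(ℂ) (Eδ δ) := fun δ => by
    have h1 : MDifferentiable 𝓘(ℂ) 𝓘(ℂ) (fun τ : ℍ => ((δ : GL (Fin 2) ℝ) • τ)) :=
      UpperHalfPlane.mdifferentiable_smul (by simp)
    exact hE.comp h1
  set G : SL(2, ℤ) → ℂ → ℂ := fun δ => UpperHalfPlane.cuspFunction N (Eδ δ) with hG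
  have hGdiff : ∀ δ, DifferentiableOn ℂ (G δ) (ball 0 1) := fun δ =>
    UpperHalfPlane.differentiableOn_cuspFunction_ball hN (hper' δ) (hhol δ) (hbdd δ)
  have hGeq : ∀ δ (τ : ℍ), G δ (𝕢 N τ) = E (δ • τ) := fun δ τ =>
    UpperHalfPlane.eq_cuspFunction τ hN.ne' (hper' δ)
  obtain ⟨S, hSne, hS⟩ := exists_finset_coset_reps Γ
  set r : ℝ := Real.exp (-π / N) with hr
  have hr0 : 0 ≤ r := (Real.exp_pos _).le
  have hr1 : r < 1 := by
    rw [hr, Real.exp_lt_one_iff]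
    exact div_neg_of_neg_of_pos (neg_lt_zero.mpr Real.pi_pos) hN
  have hmax : ∀ δ, ∃ w ∈ closedBall (0 : ℂ) r, IsMaxOn (norm ∘ G δ) (closedBall 0 r) w :=
    fun δ => (isCompact_closedBall (0 : ℂ) r).exists_isMaxOn (nonempty_closedBall.mpr hr0)
      ((hGdiff δ).continuousOn.mono (closedBall_subset_ball hr1)).norm
  choose w hw hwmax using hmax
  obtain ⟨δ₀, hδ₀S, hδ₀⟩ := Finset.exists_max_image S (fun δ => ‖G δ (w δ)‖) hSne
  -- global bound
  have hbound : ∀ z : ℍ, ‖E z‖ ≤ ‖G δ₀ (w δ₀)‖ := by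
    intro z
    obtain ⟨g, hg⟩ := ModularGroup.exists_one_half_le_im_smul z
    obtain ⟨γ, hγ, δ, hδS, hgδ⟩ := hS g⁻¹
    have hz : z = γ • (δ • (g • z)) := by
      rw [← mul_smul, ← mul_smul, ← hgδ, inv_mul_cancel, one_smul]
    have h1 : ‖E z‖ = ‖G δ (𝕢 N ((g • z : ℍ) : ℂ))‖ := by
      rw [hGeq]
      conv_lhs => rw [hz]
      exact hinv γ hγ _
    have h2 : 𝕢 N ((g • z : ℍ) : ℂ) ∈ closedBall (0 : ℂ) r := by
      rw [mem_closedBall_zero_iff, Periodic.norm_qParam, hr]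
      apply Real.exp_le_exp.mpr
      rw [div_le_div_iff_of_pos_right hN]
      have : (1 : ℝ) / 2 ≤ ((g • z : ℍ) : ℂ).im := hg
      nlinarith [Real.pi_pos]
    calc ‖E z‖ = ‖G δ (𝕢 N ((g • z : ℍ) : ℂ))‖ := h1
      _ ≤ ‖G δ (w δ)‖ := hwmax δ h2
      _ ≤ ‖G δ₀ (w δ₀)‖ := hδ₀ δ hδS
  have hq_ne : ∀ q ∈ ball (0 : ℂ) 1, q ≠ 0 → ‖G δ₀ q‖ ≤ ‖G δ₀ (w δ₀)‖ := by
    intro q hq hq0
    have hq' : ‖q‖ < 1 := mem_ball_zero_iff.mp hq
    have him : 0 < (Periodic.invQParam N q).im :=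
      Periodic.im_invQParam_pos_of_norm_lt_one hN hq' hq0
    have : G δ₀ q = E (δ₀ • (⟨Periodic.invQParam N q, him⟩ : ℍ)) := by
      rw [← hGeq]
      congr 1
      exact (Periodic.qParam_right_inv hN.ne' hq0).symm
    rw [this]
    exact hbound _
  have hballmax : IsMaxOn (norm ∘ G δ₀) (ball 0 1) (w δ₀) := by
    intro q hq
    simp only [Set.mem_ofPred_eq, comp_apply]
    rcases eq_or_ne q 0 with rfl | hq0
    · have hcont : ContinuousAt (G δ₀) 0 :=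
        ((hGdiff δ₀).differentiableAt (ball_mem_nhds 0 one_pos)).continuousAt
      have htend : Tendsto (fun q => ‖G δ₀ q‖) (𝓝[≠] 0) (𝓝 ‖G δ₀ 0‖) :=
        (hcont.norm.tendsto).mono_left nhdsWithin_le_nhds
      refine le_of_tendsto htend ?_
      exact eventually_nhdsWithin_iff.mpr
        (eventually_of_mem (ball_mem_nhds 0 one_pos) fun q hq hq0 => hq_ne q hq hq0)
    · exact hq_ne q hq hq0
  have hconst := Complex.eq_const_of_exists_max (hGdiff δ₀)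
    (closedBall_subset_ball hr1 (hw δ₀)) hballmax
  refine ⟨G δ₀ (w δ₀), fun z => ?_⟩
  have hz : z = δ₀ • (δ₀⁻¹ • z) := by rw [← mul_smul, mul_inv_cancel, one_smul]
  rw [hz, ← hGeq]
  apply hconst
  rw [mem_ball_zero_iff]
  exact Periodic.norm_qParam_lt_one hN (δ₀⁻¹ • z).2

/-- `δ T^M δ⁻¹ ∈ ±Γ₁(M)`. -/
theorem conj_T_zpow_mem_Gamma1pm (M : ℕ) (δ : SL(2, ℤ)) :
    δ * ModularGroup.T ^ (M : ℤ) * δ⁻¹ ∈ Gamma1pm M := by
  have h1 : ModularGroup.T ^ (M : ℤ) ∈ CongruenceSubgroup.Gamma M := by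
    simpa using ModularGroup_T_pow_mem_Gamma (M : ℤ) (M : ℤ) dvd_rfl
  have h2 : δ * ModularGroup.T ^ (M : ℤ) * δ⁻¹ ∈ CongruenceSubgroup.Gamma M :=
    (Gamma_normal M).conj_mem _ h1 δ
  have h3 := Gamma_mem.mp h2
  exact ⟨Gamma0_mem.mpr h3.2.2.1, Or.inl h3.2.2.2⟩

variable {M : ℕ} {φ : CuspForm (Gamma1 M) 2} {Φ : ℍ → ℂ}

/-- The period of an equivariant primitive (with limits at all cusps) along `δ T^M δ⁻¹`
vanishes. -/
theorem period1_conj_T_zpow_eq_zero (h : HasEquivariantPrimitive1 M φ Φ) (δ : SL(2, ℤ)) :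
    h.2.2.1.period ⟨δ * ModularGroup.T ^ (M : ℤ) * δ⁻¹, conj_T_zpow_mem_Gamma1pm M δ⟩ = 0 := by
  set γ : Gamma1pm M := ⟨δ * ModularGroup.T ^ (M : ℤ) * δ⁻¹, conj_T_zpow_mem_Gamma1pm M δ⟩
    with hγ
  obtain ⟨L, hL⟩ := h.2.2.2 δ
  have hL' : Tendsto (fun w : ℍ => Φ (δ • ((M : ℝ) +ᵥ w))) atImInfty (𝓝 L) :=
    hL.comp (tendsto_natCast_vadd_atImInfty M)
  have hsub : ∀ w : ℍ, Φ (δ • ((M : ℝ) +ᵥ w)) - Φ (δ • w) = h.2.2.1.period γ := by
    intro w
    rw [← h.2.2.1.sub_eq_period γ (δ • w)]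
    congr 2
    rw [natCast_vadd_eq_T_zpow_smul, hγ]
    simp only [← mul_smul]
    congr 1
    group
  have h0 : Tendsto (fun w : ℍ => Φ (δ • ((M : ℝ) +ᵥ w)) - Φ (δ • w)) atImInfty (𝓝 (L - L)) :=
    hL'.sub hL
  simp only [hsub, sub_self] at h0
  exact tendsto_nhds_unique tendsto_const_nhds h0

/-- `Φ (δ • ·)` is `M`-periodic. -/
theorem primitive1_smul_vadd (h : HasEquivariantPrimitive1 M φ Φ) (δ : SL(2, ℤ)) (w : ℍ) :
    Φ (δ • ((M : ℝ) +ᵥ w)) = Φ (δ • w) := by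
  set γ : Gamma1pm M := ⟨δ * ModularGroup.T ^ (M : ℤ) * δ⁻¹, conj_T_zpow_mem_Gamma1pm M δ⟩
    with hγ
  have h1 := h.2.2.1.sub_eq_period γ (δ • w)
  rw [period1_conj_T_zpow_eq_zero h δ, sub_eq_zero] at h1
  rw [← h1]
  congr 1
  rw [natCast_vadd_eq_T_zpow_smul, hγ]
  simp only [← mul_smul]
  congr 1
  group

/-- A weight two cusp form on `Γ₁(M)` all of whose periods have zero real part is zero. -/
theorem eq_zero_of_re_period1_eq_zero [NeZero M] (h : HasEquivariantPrimitive1 M φ Φ)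
    (hre : ∀ γ : Gamma1pm M, (h.2.2.1.period γ).re = 0) : φ = 0 := by
  set E : ℍ → ℂ := fun z => cexp (Φ z) with hEdef
  have hderiv : ∀ τ : ℍ, HasDerivAt (E ∘ ofComplex) (cexp (Φ τ) * φ τ) ↑τ := by
    intro τ
    have h1 := (h.1 τ).cexp
    simpa [E, Function.comp_def, ofComplex_apply] using h1
  have hE : MDifferentiable 𝓘(ℂ) 𝓘(ℂ) E := fun τ =>
    mdifferentiableAt_iff.mpr (hderiv τ).differentiableAt
  have hinv : ∀ γ ∈ Gamma1pm M, ∀ z : ℍ, ‖E (γ • z)‖ = ‖E z‖ := by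
    intro γ hγ z
    have h1 := h.2.2.1.sub_eq_period ⟨γ, hγ⟩ z
    have h2 := hre ⟨γ, hγ⟩
    simp only [E, Complex.norm_exp]
    congr 1
    have h3 : (Φ (γ • z) - Φ z).re = 0 := by
      rw [← h2, ← h1]
    simpa [sub_eq_zero] using h3
  have hper : ∀ (δ : SL(2, ℤ)) (z : ℍ), E (δ • ((M : ℝ) +ᵥ z)) = E (δ • z) := by
    intro δ z
    simp only [E, primitive1_smul_vadd h δ z]
  have hbdd : ∀ δ : SL(2, ℤ), IsBoundedAtImInfty (fun w : ℍ => E (δ • w)) := by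
    intro δ
    obtain ⟨L, hL⟩ := h.2.2.2 δ
    have h1 : Tendsto (fun w : ℍ => E (δ • w)) atImInfty (𝓝 (cexp L)) :=
      (Complex.continuous_exp.tendsto L).comp hL
    exact h1.isBigO_one ℝ
  obtain ⟨c, hc⟩ := eq_const_of_norm_invariant_of_finiteIndex (Γ := Gamma1pm M) hE hinv hper hbdd
  ext τ
  have h1 : HasDerivAt (E ∘ ofComplex) 0 ↑τ := by
    have h0 : E ∘ ofComplex = fun _ => c := funext fun w => hc _
    rw [h0]
    exact hasDerivAt_const _ _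
  have h2 := (hderiv τ).unique h1
  have h3 : cexp (Φ τ) ≠ 0 := Complex.exp_ne_zero _
  simpa [h3] using h2

/-- The period map of a weight two cusp form kills parabolic elements. -/
theorem periodMap1_mem_parabolicHoms (M : ℕ) [NeZero M] (f : CuspForm (Gamma1 M) 2) :
    periodMap1 M f ∈ parabolicHoms ℂ (Gamma1pm M) ℂ := by
  obtain ⟨F, hF⟩ := exists_hasEquivariantPrimitive1 M f
  intro γ hγ
  rw [periodMap1_apply M hF γ UpperHalfPlane.I]
  exact sub_eq_zero_of_trace_sq (γ : SL(2, ℤ)) (hF.2.2.1 γ) hF.2.2.2 hγ _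

/-- The period map takes values in `homPE`. -/
theorem periodMap1_mem_homPE (M : ℕ) [NeZero M] (f : CuspForm (Gamma1 M) 2) :
    periodMap1 M f ∈ Fermat.Agent.Gateway.A2.homPE ℂ (Gamma1pm M) ℂ := by
  rw [Fermat.Agent.Gateway.A2.Count.homPE_complex_eq]
  exact periodMap1_mem_parabolicHoms M f

/-- **Injectivity of the period map on `S₂(Γ₁(M))`** (the easy half of Eichler-Shimura). -/
theorem periodMap1_eq_zero_iff (M : ℕ) [NeZero M] (f : CuspForm (Gamma1 M) 2) :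
    periodMap1 M f = 0 ↔ f = 0 := by
  constructor
  · intro h0
    obtain ⟨F, hF⟩ := exists_hasEquivariantPrimitive1 M f
    refine eq_zero_of_re_period1_eq_zero hF fun γ => ?_
    have h1 := periodMap1_apply M hF γ UpperHalfPlane.I
    rw [h0] at h1
    have h2 : hF.2.2.1.period γ = 0 := by
      rw [IsEquivariantPrimitive.period, ← h1]
      rfl
    rw [h2]
    rfl
  · rintro rfl
    exact (periodMapLinear1 M).map_zero

theorem periodMapLinear1_injective (M : ℕ) [NeZero M] :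
    Function.Injective (periodMapLinear1 M) := by
  rw [← LinearMap.ker_eq_bot, LinearMap.ker_eq_bot']
  intro f hf
  exact (periodMap1_eq_zero_iff M f).mp hf

end Fermat.Agent.S48x.G1
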